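/-
Fermat/Agent/AV/F5_6/JacobiCurv.lean  (helper6)

Programme AV (S26 + S27), brick F5 (assembly of S27), file 1:
Jacobi inversion in the shape consumed by DEG: for the Jacobian `J` (a scheme representing THE cut
`cut41 D`) with THE group law `PicBridge84.SchemeSide.law h` (helper84), the `g` copies of the curve
with the normalised Abel-Jacobi map `x ↦ F1(x) - F1(ε)` form a `Curv33.CurvStatement` (sum map
`C^g ⟶ J` surjective, hence dominant).  So S27 does not depend on brick CURV.

* `pointCommGroup`             : the commutative group of `T`-points of a commutative law;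
* `abelianBundle`              : `AbelianSchemePropertyBundle` of the Jacobian;
* `aj0 h F1`, `aj h F1`        : the Abel-Jacobi morphism of a one-point family, and its
                                 normalisation through the origin;
* `ajCurve h F1`               : the corresponding `Curv33.CurveTo`;
* `exists_point`               : a product of `n` one-point classes is hit by the sum map
                                 (up to the translation by `n • F1(ε)`);
* `sumMap_hits`                : Jacobi inversion `⇒` every `k`-point of `J` is hit;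
* `surjective_sumMap`          : the sum map is surjective;
* `curvStatement`              : `Curv33.CurvStatement (law h) g`;
* `curvStatement_genus`        : the same with `g = Genus41.genus cc`, no hypothesis left.
-/
import Mathlib
import Fermat.Agent.AV.PicBridge84.Scheme
import Fermat.Agent.AV.Curv33.Iface
import Fermat.Agent.Jac.FinalWiring41d
import Fermat.Agent.Jac.Genus41

set_option autoImplicit false
set_option linter.unusedSectionVars false
set_option linter.style.haveILetI false

noncomputable section

universe u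

open CategoryTheory CategoryTheory.Limits AlgebraicGeometry AlgebraicGeometry.RelPicard
  NeronModelInfra GoodReductionJacobian

namespace Fermat.Agent.AV.F5_6.JacobiCurv

open Fermat.Agent.Jac Fermat.Agent.Jac.PointsBridge79 Fermat.Agent.Jac.PointsBridge79Shell
  Fermat.Agent.AV.PicBridge84.SchemeSide Fermat.Agent.AV.Curv33 Fermat.Agent.Jac.AbelJacobi73
  Fermat.Agent.Jac.FinalWiring41 Fermat.Agent.Jac.AffGroup79

/-! ### Generalities on relative group laws -/

section Law

variable {R : Type u} [CommRing R] {A : Scheme.{u}} {f : A ⟶ Spec (CommRingCat.of R)}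
  (L : RelativeGroupLaw R f)

/-- The constant `T`-valued point attached to a rational point. -/
def constPt {T : Scheme.{u}} (t : T ⟶ Spec (CommRingCat.of R))
    (a : SchemeHomOver (𝟙 (Spec (CommRingCat.of R))) f) : SchemeHomOver t f :=
  schemeHomOverComp t (Category.comp_id t) a

theorem comp_constPt {T : Scheme.{u}} (t : T ⟶ Spec (CommRingCat.of R))
    (a : SchemeHomOver (𝟙 (Spec (CommRingCat.of R))) f)
    (z : SchemeHomOver (𝟙 (Spec (CommRingCat.of R))) t) :
    schemeHomOverComp z.1 z.2 (constPt t a) = a := by
  apply Subtype.ext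
  show z.1 ≫ t ≫ a.1 = a.1
  rw [← Category.assoc, z.2, Category.id_comp]

theorem schemeHomOverComp_id {T : Scheme.{u}} (t : T ⟶ Spec (CommRingCat.of R))
    (x : SchemeHomOver t f) : schemeHomOverComp (𝟙 T) (Category.id_comp t) x = x :=
  Subtype.ext (Category.id_comp _)

theorem schemeHomOverComp_comp {T T' T'' : Scheme.{u}} {t : T ⟶ Spec (CommRingCat.of R)}
    {t' : T' ⟶ Spec (CommRingCat.of R)} {t'' : T'' ⟶ Spec (CommRingCat.of R)}
    (ψ : T' ⟶ T) (hψ : ψ ≫ t = t') (χ : T'' ⟶ T') (hχ : χ ≫ t' = t'') (x : SchemeHomOver t f) :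
    schemeHomOverComp χ hχ (schemeHomOverComp ψ hψ x) =
      schemeHomOverComp (χ ≫ ψ) (by rw [Category.assoc, hψ, hχ]) x :=
  Subtype.ext (Category.assoc _ _ _).symm

theorem schemeHomOverComp_congr {T T' : Scheme.{u}} {t : T ⟶ Spec (CommRingCat.of R)}
    {t' : T' ⟶ Spec (CommRingCat.of R)} {ψ ψ' : T' ⟶ T} (hψ : ψ ≫ t = t') (hψ' : ψ' ≫ t = t')
    (h : ψ = ψ') (x : SchemeHomOver t f) :
    schemeHomOverComp ψ hψ x = schemeHomOverComp ψ' hψ' x := by
  subst h; rfl

theorem mul_inv_cancel' {T : Scheme.{u}} (t : T ⟶ Spec (CommRingCat.of R))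
    (x : SchemeHomOver t f) : L.mul t x (L.inv t x) = L.one t := by
  have h1 : L.mul t (L.inv t (L.inv t x)) (L.inv t x) = L.one t := L.inv_mul_cancel t _
  have h2 : L.inv t (L.inv t x) = x := by
    calc L.inv t (L.inv t x) = L.mul t (L.inv t (L.inv t x)) (L.one t) := (L.mul_one t _).symm
      _ = L.mul t (L.inv t (L.inv t x)) (L.mul t (L.inv t x) x) := by rw [L.inv_mul_cancel]
      _ = L.mul t (L.mul t (L.inv t (L.inv t x)) (L.inv t x)) x := (L.mul_assoc t _ _ _).symm
      _ = L.mul t (L.one t) x := by rw [h1]
      _ = x := L.one_mul t x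
  rw [h2] at h1
  exact h1

/-- The commutative group of `T`-valued points of a commutative relative group law. -/
@[reducible]
def pointCommGroup (hc : L.IsCommutative) {T : Scheme.{u}}
    (t : T ⟶ Spec (CommRingCat.of R)) : CommGroup (SchemeHomOver t f) where
  mul x y := L.mul t x y
  one := L.one t
  inv x := L.inv t x
  mul_assoc := L.mul_assoc t
  one_mul := L.one_mul t
  mul_one := L.mul_one t
  inv_mul_cancel := L.inv_mul_cancel t
  mul_comm := hc t

/-- The `nsmul` of the Prelude is the power of the group of points. -/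
theorem nsmul_eq_pow (hc : L.IsCommutative) {T : Scheme.{u}} (t : T ⟶ Spec (CommRingCat.of R))
    (n : ℕ) (x : SchemeHomOver t f) :
    L.nsmul t n x = (letI := pointCommGroup L hc t; x ^ n) := by
  letI := pointCommGroup L hc t
  induction n with
  | zero => rfl
  | succ n ih =>
    rw [RelativeGroupLaw.nsmul_succ, ih, pow_succ]
    rfl

end Law

/-- The structure morphism of a product of curves is proper. -/
theorem isProper_prodHom {K : Type u} [Field K] {A : Scheme.{u}}
    {f : A ⟶ Spec (CommRingCat.of K)}
    {e : SchemeHomOver (𝟙 (Spec (CommRingCat.of K))) f} (l : List (CurveTo f e)) :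
    IsProper (prodHom l) := by
  induction l with
  | nil => show IsProper (𝟙 _); infer_instance
  | cons X l ih =>
    show IsProper (pullback.fst X.c (prodHom l) ≫ X.c)
    infer_instance

variable {k : Type u} [Field k] [IsAlgClosed k] {C : Scheme.{u}}
  {c : C ⟶ Spec (CommRingCat.of k)} [IsIntegral C]
  {ε : SchemeHomOver (𝟙 (Spec (CommRingCat.of k))) c} {cc : CurveCharts c ε}
  {D : AffineDictionary cc} {D' : RelativePic0Designation k c}
  (h : RepresentsRelSubPic c ε (cut41 D) D') (F1 : ClassFamily (cut41 D) c)

/-! ### The group law in terms of classes -/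

theorem law_mul_classPoint {B : CommRingCat.{u}} (t : Spec B ⟶ Spec (CommRingCat.of k))
    (ξ η : PClass (cut41 D) t) :
    (law h).mul t (classPoint h t ξ) (classPoint h t η) =
      classPoint h t ((groupLaw41 D).mul t ξ η) := by
  show (affLaw h).toRelativeGroupLaw.mul t _ _ = _
  rw [AffineGroupLaw.toRelativeGroupLaw_mul_affine]
  show classPoint h t ((groupLaw41 D).mul t (pointClass h t (classPoint h t ξ))
    (pointClass h t (classPoint h t η))) = _
  rw [pointClass_classPoint, pointClass_classPoint]

theorem law_one_eq {B : CommRingCat.{u}} (t : Spec B ⟶ Spec (CommRingCat.of k)) :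
    (law h).one t = classPoint h t ((groupLaw41 D).one t) :=
  toRelativeGroupLaw_one_affine (affLaw h) t

/-- The `AbelianSchemePropertyBundle` of a smooth, proper, geometrically connected scheme with a
group law (e.g. the Jacobian). -/
theorem abelianBundle {K : Type u} [Field K] {A : Scheme.{u}} {f : A ⟶ Spec (CommRingCat.of K)}
    (L : RelativeGroupLaw K f) (hs : Smooth f) (hp : IsProper f)
    (hg : GeometricallyConnected f) : AbelianSchemePropertyBundle K f where
  smooth := hs
  proper := hp
  connectedFibres := fun s => f.isConnected_preimage_singleton s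
  hasGroupLaw := ⟨L⟩

/-! ### The normalised Abel-Jacobi morphism -/

/-- The Abel-Jacobi morphism of the one-point family. -/
def aj0 : SchemeHomOver c D'.toBase := ⟨familyMap h F1, familyMap_toBase h F1⟩

/-- Its value at the base point of the curve. -/
def a0 : SchemeHomOver (𝟙 (Spec (CommRingCat.of k))) D'.toBase :=
  schemeHomOverComp ε.1 ε.2 (aj0 h F1)

/-- The opposite of the value at the base point. -/
def b0 : SchemeHomOver (𝟙 (Spec (CommRingCat.of k))) D'.toBase :=
  (law h).inv (𝟙 _) (a0 h F1)

/-- The normalised Abel-Jacobi morphism `x ↦ aj0 x - aj0 ε`. -/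
def aj : SchemeHomOver c D'.toBase :=
  (law h).mul c (aj0 h F1) (constPt c (b0 h F1))

/-- The value of the normalised Abel-Jacobi morphism at a rational point. -/
theorem comp_aj (x : SchemeHomOver (𝟙 (Spec (CommRingCat.of k))) c) :
    schemeHomOverComp x.1 x.2 (aj h F1) =
      (law h).mul (𝟙 _) (schemeHomOverComp x.1 x.2 (aj0 h F1)) (b0 h F1) := by
  unfold aj
  rw [(law h).mul_natural c (𝟙 _) x.1 x.2, comp_constPt]

/-- The normalised Abel-Jacobi morphism maps the base point to the origin. -/
theorem aj_base : ε.1 ≫ (aj h F1).1 = ((law h).one (𝟙 (Spec (CommRingCat.of k)))).1 := by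
  have h1 := comp_aj h F1 ε
  have h2 : schemeHomOverComp ε.1 ε.2 (aj h F1) = (law h).one (𝟙 _) := by
    rw [h1]
    exact mul_inv_cancel' (law h) (𝟙 _) (a0 h F1)
  exact congrArg Subtype.val h2

/-- `classPoint` is insensitive to transport of the structure morphism. -/
theorem classPoint_castClass {T : Scheme.{u}} {t t' : T ⟶ Spec (CommRingCat.of k)} (ht : t = t')
    (ξ : PClass (cut41 D) t) :
    (classPoint h t' (castClass ht ξ)).1 = (classPoint h t ξ).1 := by
  subst ht; rfl

/-- The Abel-Jacobi morphism at a rational point classifies the class of the family there. -/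
theorem comp_aj0 (x : SchemeHomOver (𝟙 (Spec (CommRingCat.of k))) c) :
    schemeHomOverComp x.1 x.2 (aj0 h F1) =
      classPoint h (𝟙 _) (clsAt F1 (CommRingCat.of k) x.1 (𝟙 _) x.2) := by
  apply Subtype.ext
  show x.1 ≫ familyMap h F1 = _
  rw [comp_familyMap h F1 (CommRingCat.of k) x.1]
  unfold clsAt
  rw [classPoint_castClass]

variable [IsProper c] [SmoothOfRelativeDimension 1 c]

/-- The curve with its normalised Abel-Jacobi morphism, as a `CurveTo`. -/
abbrev ajCurve : CurveTo D'.toBase ((law h).one (𝟙 (Spec (CommRingCat.of k)))) where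
  C := C
  c := c
  isProper := inferInstance
  smooth := inferInstance
  isIntegral := inferInstance
  ε := ε
  φ := aj h F1
  φ_ε := aj_base h F1

/-- A product of `n` one-point classes is hit by the sum map of `n` copies of the normalised
Abel-Jacobi curve, up to the translation by `n • (- F1(ε))`. -/
theorem exists_point (n : ℕ) (ξ : PClass (cut41 D) (𝟙 (Spec (CommRingCat.of k))))
    (hξ : IsProductOfPoints (groupLaw41 D) F1 n ξ) :
    ∃ z : SchemeHomOver (𝟙 (Spec (CommRingCat.of k)))
        (prodHom (List.replicate n (ajCurve h F1))),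
      schemeHomOverComp z.1 z.2 (sumPt (law h) (List.replicate n (ajCurve h F1))) =
        (law h).mul (𝟙 _) (classPoint h (𝟙 _) ξ) ((law h).nsmul (𝟙 _) n (b0 h F1)) := by
  induction n generalizing ξ with
  | zero =>
    refine ⟨⟨𝟙 _, Category.id_comp _⟩, ?_⟩
    have hξ' : ξ = (groupLaw41 D).one (𝟙 _) := hξ
    rw [hξ', ← law_one_eq, RelativeGroupLaw.nsmul_zero, (law h).mul_one]
    exact schemeHomOverComp_id _ _
  | succ n ih =>
    obtain ⟨x, ξ', hξ', rfl⟩ := hξ
    obtain ⟨z', hz'⟩ := ih ξ' hξ'
    have hcond : x.1 ≫ c = z'.1 ≫ prodHom (List.replicate n (ajCurve h F1)) := by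
      rw [z'.2]; exact x.2
    have hz2 : pullback.lift x.1 z'.1 hcond ≫
        prodHom (ajCurve h F1 :: List.replicate n (ajCurve h F1)) = 𝟙 _ := by
      show pullback.lift x.1 z'.1 hcond ≫
        (pullback.fst c (prodHom (List.replicate n (ajCurve h F1))) ≫ c) = _
      rw [pullback.lift_fst_assoc]; exact x.2
    refine ⟨⟨pullback.lift x.1 z'.1 hcond, hz2⟩, ?_⟩
    show schemeHomOverComp (pullback.lift x.1 z'.1 hcond) hz2
      (sumPt (law h) (ajCurve h F1 :: List.replicate n (ajCurve h F1))) = _
    have key := (law h).mul_natural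
      (prodHom (ajCurve h F1 :: List.replicate n (ajCurve h F1))) (𝟙 _)
      (pullback.lift x.1 z'.1 hcond) hz2
      (schemeHomOverComp (prodFst (ajCurve h F1) (List.replicate n (ajCurve h F1)))
        (prodFst_c (ajCurve h F1) (List.replicate n (ajCurve h F1))) (aj h F1))
      (schemeHomOverComp (prodSnd (ajCurve h F1) (List.replicate n (ajCurve h F1)))
        (prodSnd_hom (ajCurve h F1) (List.replicate n (ajCurve h F1)))
        (sumPt (law h) (List.replicate n (ajCurve h F1))))
    refine key.trans ?_
    have e1 : schemeHomOverComp (pullback.lift x.1 z'.1 hcond) hz2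
        (schemeHomOverComp (prodFst (ajCurve h F1) (List.replicate n (ajCurve h F1)))
          (prodFst_c (ajCurve h F1) (List.replicate n (ajCurve h F1))) (aj h F1)) =
          schemeHomOverComp x.1 x.2 (aj h F1) := by
      apply Subtype.ext
      show pullback.lift x.1 z'.1 hcond ≫
        pullback.fst c (prodHom (List.replicate n (ajCurve h F1))) ≫ (aj h F1).1 = x.1 ≫ (aj h F1).1
      rw [pullback.lift_fst_assoc]
    have e2 : schemeHomOverComp (pullback.lift x.1 z'.1 hcond) hz2
        (schemeHomOverComp (prodSnd (ajCurve h F1) (List.replicate n (ajCurve h F1)))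
          (prodSnd_hom (ajCurve h F1) (List.replicate n (ajCurve h F1)))
          (sumPt (law h) (List.replicate n (ajCurve h F1)))) =
          schemeHomOverComp z'.1 z'.2 (sumPt (law h) (List.replicate n (ajCurve h F1))) := by
      apply Subtype.ext
      show pullback.lift x.1 z'.1 hcond ≫
        pullback.snd c (prodHom (List.replicate n (ajCurve h F1))) ≫
          (sumPt (law h) (List.replicate n (ajCurve h F1))).1 =
        z'.1 ≫ (sumPt (law h) (List.replicate n (ajCurve h F1))).1
      rw [pullback.lift_snd_assoc]
    refine (congrArg₂ ((law h).mul (𝟙 (Spec (CommRingCat.of k)))) e1 e2).trans ?_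
    rw [hz', comp_aj, comp_aj0, ← law_mul_classPoint, RelativeGroupLaw.nsmul_succ]
    letI : CommGroup (SchemeHomOver (𝟙 (Spec (CommRingCat.of k))) D'.toBase) :=
      pointCommGroup (law h) (isCommutative_law h) (𝟙 _)
    set P := classPoint h (𝟙 _) (clsAt F1 (CommRingCat.of k) x.1 (𝟙 _) x.2)
    set Q := classPoint h (𝟙 _) ξ'
    set b := b0 h F1
    set bn := (law h).nsmul (𝟙 _) n b
    show (P * b) * (Q * bn) = (P * Q) * (bn * b)
    rw [mul_mul_mul_comm, mul_comm b bn]

/-- **Jacobi inversion**: if every class over `Spec k` is a product of `g` one-point classes, the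
sum map of `g` copies of the normalised Abel-Jacobi curve hits every `k`-point. -/
theorem sumMap_hits (g : ℕ)
    (H : ∀ ξ : PClass (cut41 D) (𝟙 (Spec (CommRingCat.of k))),
      IsProductOfPoints (groupLaw41 D) F1 g ξ)
    (y : SchemeHomOver (𝟙 (Spec (CommRingCat.of k))) D'.toBase) :
    ∃ z : Spec (CommRingCat.of k) ⟶ prodObj (List.replicate g (ajCurve h F1)),
      z ≫ sumMap (law h) (List.replicate g (ajCurve h F1)) = y.1 := by
  obtain ⟨z, hz⟩ := exists_point h F1 g
    (pointClass h (𝟙 _) ((law h).mul (𝟙 _) y ((law h).nsmul (𝟙 _) g (a0 h F1)))) (H _)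
  refine ⟨z.1, ?_⟩
  have h1 := congrArg Subtype.val hz
  rw [schemeHomOverComp_coe] at h1
  refine h1.trans (congrArg Subtype.val ?_)
  rw [classPoint_pointClass, nsmul_eq_pow _ (isCommutative_law h),
    nsmul_eq_pow _ (isCommutative_law h)]
  letI : CommGroup (SchemeHomOver (𝟙 (Spec (CommRingCat.of k))) D'.toBase) :=
    pointCommGroup (law h) (isCommutative_law h) (𝟙 _)
  show (y * a0 h F1 ^ g) * (a0 h F1)⁻¹ ^ g = y
  rw [inv_pow, mul_inv_cancel_right]

/-- The sum map of `g` copies of the normalised Abel-Jacobi curve is surjective. -/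
theorem surjective_sumMap [LocallyOfFiniteType D'.toBase] (g : ℕ)
    (H : ∀ ξ : PClass (cut41 D) (𝟙 (Spec (CommRingCat.of k))),
      IsProductOfPoints (groupLaw41 D) F1 g ξ) :
    Surjective (sumMap (law h) (List.replicate g (ajCurve h F1))) := by
  haveI : IsSeparated D'.toBase := isSeparated_of_classGroupLaw h (groupLaw41 D)
  haveI : IsProper (prodHom (List.replicate g (ajCurve h F1))) := isProper_prodHom _
  exact QShell79Proper.surjective_of_forall_rational_point D'.toBase
    (prodHom (List.replicate g (ajCurve h F1))) _ (sumMap_f (law h) _)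
    (sumMap_hits h F1 g H)

/-- **Jacobi inversion in the shape of brick CURV.** -/
theorem curvStatement [LocallyOfFiniteType D'.toBase] (g : ℕ)
    (H : ∀ ξ : PClass (cut41 D) (𝟙 (Spec (CommRingCat.of k))),
      IsProductOfPoints (groupLaw41 D) F1 g ξ) :
    CurvStatement (law h) g := by
  refine ⟨List.replicate g (ajCurve h F1), List.length_replicate, ?_⟩
  haveI := surjective_sumMap h F1 g H
  infer_instance

/-- **Jacobi inversion in the shape of brick CURV, with `g` the genus, nothing left.** -/
theorem curvStatement_genus [LocallyOfFiniteType D'.toBase] :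
    CurvStatement (law h) (Genus41.genus cc) := by
  obtain ⟨F1, H⟩ := exists_F1_H41 cc D
  exact curvStatement h F1 _ H

end Fermat.Agent.AV.F5_6.JacobiCurv

end
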