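/-
Fermat/Agent/AV/F5_6/Assembly.lean  (helper6)

Programme AV (S26 + S27), brick F5: THE ASSEMBLY OF S27 from the bricks

* DEG  (`DegStatement`)  : `#A[n] = n^(2g)` for a commutative group scheme `A`, smooth of relative
  dimension `g`, proper, connected over an algebraically closed field, with a dominant sum map from
  `g` pointed smooth proper curves (`Curv33.CurvStatement`); a fortiori it follows from S26
  (`degStatement_of_s26`);
* F1   (`ModelGenExists`) : the model curve of a function field, with its coordinate a separating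
  generator (helper15);
* DIMJ (`DimJ76.dimJ`, LANDED helper76) : the Jacobian is smooth of relative dimension `g`;
* F2   (`PicBridge84.ModelGlue.card_torsion_eq_card_torsionPoint`, LANDED helper84) :
  `#Pic⁰(K,F)[n] = #J(K)[n]` for THE group law `PicBridge84.SchemeSide.law h`;
* F3   (`F3_53.Genus.genus_eq_genusFF`, LANDED helper53) : `Genus41.genus cc = genusFF K F`;
* F0   (`F0_6.Main.s27_of_one_universe`), Jacobi inversion (`JacobiCurv.curvStatement_genus`),
  comparison of cuts (`PicBridge84.Jacobian.representsCut41_of_algEquivZero`): landed.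
-/
import Mathlib
import Fermat.Agent.AV.F5_6.JacobiCurv
import Fermat.Agent.AV.PicBridge84.Jacobian
import Fermat.Agent.AV.PicBridge84.Model
import Fermat.Agent.AV.F0_6.Main
import Fermat.Agent.AV.F1Model15.Interface
import Fermat.Agent.AV.DimJ76.Assembly
import Fermat.Agent.AV.F3_53.Genus

set_option autoImplicit false
set_option linter.unusedSectionVars false
set_option linter.style.haveILetI false

noncomputable section

universe u v

open CategoryTheory CategoryTheory.Limits AlgebraicGeometry AlgebraicGeometry.RelPicard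
  NeronModelInfra GoodReductionJacobian AlgebraicCurve IntermediateField

namespace Fermat.Agent.AV.F5_6.Assembly

open Fermat.Agent.Jac Fermat.Agent.Jac.FinalWiring41 Fermat.Agent.AV.PicBridge84.SchemeSide

/-- **Brick DEG** (abstract form, parameter `g`): the number of `n`-torsion points. -/
def DegStatement : Prop :=
  ∀ (K : Type u) [Field K] [IsAlgClosed K] {A : Scheme.{u}} (f : A ⟶ Spec (CommRingCat.of K))
    (L : RelativeGroupLaw K f) (_ : L.IsCommutative) (_ : AbelianSchemePropertyBundle K f)
    (g : ℕ) [SmoothOfRelativeDimension g f] (_ : Curv33.CurvStatement L g)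
    (n : ℕ) (_ : (n : K) ≠ 0),
    Nat.card {x : SchemeHomOver (𝟙 (Spec (CommRingCat.of K))) f //
        L.IsTorsionPoint (𝟙 (Spec (CommRingCat.of K))) n x} = n ^ (2 * g)

/-- The statement of S26 (in the universe `u`). -/
def S26Statement : Prop :=
  ∀ (K : Type u) [Field K] [IsAlgClosed K] {A : Scheme.{u}} (f : A ⟶ Spec (CommRingCat.of K))
    (L : RelativeGroupLaw K f) (_ : L.IsCommutative) (_ : AbelianSchemePropertyBundle K f)
    (g : ℕ) [SmoothOfRelativeDimension g f] (n : ℕ) (_ : (n : K) ≠ 0),
    Nat.card {x : SchemeHomOver (𝟙 (Spec (CommRingCat.of K))) f //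
        L.IsTorsionPoint (𝟙 (Spec (CommRingCat.of K))) n x} = n ^ (2 * g)

theorem degStatement_of_s26 (h : S26Statement.{u}) : DegStatement.{u} :=
  fun K _ _ _ f L hc hA g _ _ n hn => h K f L hc hA g n hn

/-- **Brick F1** (with the generator property needed by F3): the model curve of a function field
whose coordinate `t` is transcendental with `F / K(t)` finite. -/
def ModelGenExists : Prop :=
  ∀ (K F : Type u) [Field K] [Field F] [Algebra K F] [IsAlgClosed K] [CharZero K]
    [IsCurveOver K F] [Algebra.EssFiniteType K F],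
    ∃ M : F1Model15.Model K F, Transcendental K M.alg.t ∧ FiniteDimensional K⟮M.alg.t⟯ F

/-- **S27 in one universe, from the bricks.** -/
theorem s27_same_universe (hDeg : DegStatement.{u}) (hF1 : ModelGenExists.{u})
    (K F : Type u) [Field K] [Field F] [Algebra K F] [IsAlgClosed K] [CharZero K]
    [IsCurveOver K F] [Algebra.EssFiniteType K F] (ℓ : ℕ) [Fact ℓ.Prime] (k : ℕ) :
    Nat.card (Pic0.torsion K F (ℓ ^ k)) = ℓ ^ (2 * genusFF K F * k) := by
  obtain ⟨M, hMt, hMfd⟩ := hF1 K F
  haveI := M.isProper
  haveI := M.smooth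
  haveI := M.isIntegral
  obtain ⟨D', ⟨R⟩, hs, hp, hg, hdim⟩ := DimJ76.dimJ K M.c M.ε M.cc
  let h : RepresentsRelSubPic M.c M.ε (cut41 (dict41 M.cc)) D' :=
    Fermat.Agent.AV.PicBridge84.Jacobian.representsCut41_of_algEquivZero M.cc R
  haveI := hdim
  haveI : LocallyOfFiniteType D'.toBase := inferInstance
  have hcurv : Curv33.CurvStatement (law h) (Genus41.genus M.cc) :=
    JacobiCurv.curvStatement_genus h
  have hℓ : 0 < ℓ ^ k := pow_pos (Fact.out : ℓ.Prime).pos k
  have hn : ((ℓ ^ k : ℕ) : K) ≠ 0 := Nat.cast_ne_zero.mpr hℓ.ne'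
  have hdeg := hDeg K D'.toBase (law h) (isCommutative_law h)
    (JacobiCurv.abelianBundle (law h) hs hp hg) (Genus41.genus M.cc) hcurv (ℓ ^ k) hn
  have hF2 := Fermat.Agent.AV.PicBridge84.ModelGlue.card_torsion_eq_card_torsionPoint M
    (dict41 M.cc) h hℓ
  rw [hF2]
  refine hdeg.trans ?_
  rw [F3_53.Genus.genus_eq_genusFF M ⟨hMt, hMfd⟩, ← pow_mul]
  congr 1
  ring

/-- **S27 from the bricks** (two universes, the frozen statement). -/
theorem s27_of_bricks (hDeg : DegStatement.{max u v}) (hF1 : ModelGenExists.{max u v})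
    (K : Type u) (F : Type v) [Field K] [Field F] [Algebra K F] [IsAlgClosed K] [CharZero K]
    [IsCurveOver K F] [Algebra.EssFiniteType K F] (ℓ : ℕ) [Fact ℓ.Prime] (k : ℕ) :
    Nat.card (Pic0.torsion K F (ℓ ^ k)) = ℓ ^ (2 * genusFF K F * k) :=
  F0_6.Main.s27_of_one_universe.{u, v}
    (fun K F _ _ _ _ _ _ _ ℓ _ k => s27_same_universe hDeg hF1 K F ℓ k) K F ℓ k

end Fermat.Agent.AV.F5_6.Assembly

end
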