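/-
Fermat/Agent/AV/F5_6/Final.lean  (helper6)

Programme AV (S26 + S27), brick F5: S27 from brick DEG ALONE.  All the other inputs are landed:
F0 (universes), F1 (`F1Model15.modelExists_isGen`, helper15), F2 (helper84), F3 (helper53),
DIMJ (helper76), Jacobi inversion (`JacobiCurv`).
-/
import Mathlib
import Fermat.Agent.AV.F5_6.Assembly
import Fermat.Agent.AV.F1Model15.Main

set_option autoImplicit false

universe u v

open AlgebraicCurve

namespace Fermat.Agent.AV.F5_6.Final

open Fermat.Agent.AV.F5_6.Assembly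

/-- Brick F1 in the shape consumed by the assembly. -/
theorem modelGenExists : ModelGenExists.{u} :=
  fun K F _ _ _ _ _ _ _ => Fermat.Agent.AV.F1Model15.modelExists_isGen K F

/-- **S27 from brick DEG** (abstract form with the curve list as a hypothesis). -/
theorem s27_of_deg (hDeg : DegStatement.{max u v})
    (K : Type u) (F : Type v) [Field K] [Field F] [Algebra K F] [IsAlgClosed K] [CharZero K]
    [IsCurveOver K F] [Algebra.EssFiniteType K F] (ℓ : ℕ) [Fact ℓ.Prime] (k : ℕ) :
    Nat.card (Pic0.torsion K F (ℓ ^ k)) = ℓ ^ (2 * genusFF K F * k) :=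
  s27_of_bricks hDeg modelGenExists K F ℓ k

/-- **S27 from S26.** -/
theorem s27_of_s26 (hS26 : S26Statement.{max u v})
    (K : Type u) (F : Type v) [Field K] [Field F] [Algebra K F] [IsAlgClosed K] [CharZero K]
    [IsCurveOver K F] [Algebra.EssFiniteType K F] (ℓ : ℕ) [Fact ℓ.Prime] (k : ℕ) :
    Nat.card (Pic0.torsion K F (ℓ ^ k)) = ℓ ^ (2 * genusFF K F * k) :=
  s27_of_deg (degStatement_of_s26 hS26) K F ℓ k

end Fermat.Agent.AV.F5_6.Final
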